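import Mathlib
import Fermat.Agent.LT.T7.B981.PairBaseSpec
import Fermat.Agent.LT.T7.B981.H890.Lvl

/-!
# Row LT, tower T7, leaf A.0.S `B981.IwSuppC981` (helper116, OFF-MAIN, never land)

VERBATIM vs `LT/T7/B981/PairBaseSpec.lean` (helper981, sha256 cfa0d9f7), UNCONDITIONAL, every
number field.  `C = tsupport f`; at `o j ∣ 𝔫`, `o j ∉ P` the entries of `y - 1`, `y⁻¹ - 1` lie in
the closure of `𝔫`, hence have valuation `< 1` (`isLevelOf_mult890` of helper890 for `𝔫 ≠ 0`).
-/

set_option autoImplicit false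
set_option linter.unusedSectionVars false
set_option linter.unusedVariables false

open AutomorphicForm IsDedekindDomain NumberField MeasureTheory

noncomputable section

namespace Fermat.Agent.LT.T7.H116

open Fermat.Agent.LT.H556 Fermat.Agent.LT.H556.A0 Fermat.Agent.LT Fermat.Agent.LT.T7
open Fermat.Agent.LT.T7.H893 Fermat.Agent.LT.T7.B981

/-- The elements of the closure of an ideal divisible by `v` have valuation `< 1`. -/
theorem val_lt_one_of_mem_idealClosure116 {K : Type} [Field K] [NumberField K]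
    (𝔫 : Ideal (𝓞 K)) (v : HeightOneSpectrum (𝓞 K)) (hv : v.asIdeal ∣ 𝔫)
    {x : v.adicCompletion K} (hx : x ∈ idealClosure 𝔫 v) : Valued.v x < 1 := by
  by_cases h𝔫 : 𝔫 = ⊥
  · subst h𝔫
    have h0 : idealClosure (⊥ : Ideal (𝓞 K)) v = {0} := by
      unfold idealClosure
      have : ((fun x : 𝓞 K => algebraMap K (v.adicCompletion K) (algebraMap (𝓞 K) K x)) ''
          ((⊥ : Ideal (𝓞 K)) : Set (𝓞 K))) = {0} := by
        ext y
        constructor
        · rintro ⟨z, hz, rfl⟩
          have hz0 : z = 0 := hz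
          simp [hz0]
        · intro hy
          exact ⟨0, rfl, by simp [Set.mem_singleton_iff.1 hy]⟩
      rw [this, closure_singleton]
    rw [h0] at hx
    rw [Set.mem_singleton_iff.1 hx, map_zero]
    exact zero_lt_one
  · have hlev := B981.H890.isLevelOf_mult890 h𝔫
    have h1 : 1 ≤ B981.H890.mult890 𝔫 v :=
      B981.H890.le_mult890 h𝔫 v (by rw [pow_one]; exact hv)
    have h2 := (hlev v x).1 hx
    refine lt_of_le_of_lt h2 ?_
    rw [← WithZero.exp_zero, WithZero.exp_lt_exp]
    omega

/-- **LEAF A.0.S = IW-SUPP**, verbatim. -/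
theorem iwSuppC116 (K : Type) [Field K] [NumberField K] : IwSuppC981 K := by
  intro 𝔫 P l o hdiv hout f hf hsupp
  refine ⟨tsupport f, hf, T5.H32.isIwSupported_of_support32 ?_⟩
  intro y hy j hj
  have hO := hsupp y hy (o j) (hout j hj)
  have hlt : ∀ a b : Fin 2, Valued.v ((finComp (o j) y - 1) a b) < 1 ∧
      Valued.v ((finComp (o j) y⁻¹ - 1) a b) < 1 := fun a b =>
    ⟨val_lt_one_of_mem_idealClosure116 𝔫 (o j) (hdiv j hj) (hO a b).1,
      val_lt_one_of_mem_idealClosure116 𝔫 (o j) (hdiv j hj) (hO a b).2⟩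
  have hone : ∀ a b : Fin 2,
      Valued.v ((1 : Matrix (Fin 2) (Fin 2) ((o j).adicCompletion K)) a b) ≤ 1 := by
    intro a b
    by_cases hab : a = b
    · subst hab
      rw [Matrix.one_apply_eq, map_one]
    · rw [Matrix.one_apply_ne hab, map_zero]
      exact zero_le'
  have hint : ∀ (g : G K), (∀ a b : Fin 2, Valued.v ((finComp (o j) g - 1) a b) < 1) →
      ∀ a b : Fin 2, Valued.v (finComp (o j) g a b) ≤ 1 := by
    intro g hg a b
    have h1 : finComp (o j) g a b = (finComp (o j) g - 1) a b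
        + (1 : Matrix (Fin 2) (Fin 2) ((o j).adicCompletion K)) a b := by
      rw [Matrix.sub_apply]; ring
    rw [h1]
    exact le_trans (Valuation.map_add _ _ _) (max_le (hg a b).le (hone a b))
  refine ⟨hint y (fun a b => (hlt a b).1), hint y⁻¹ (fun a b => (hlt a b).2), ?_⟩
  have h10 := (hlt 1 0).1
  rw [Matrix.sub_apply, Matrix.one_apply_ne (by decide), sub_zero] at h10
  exact h10

example (K : Type) [Field K] [NumberField K] : Fermat.Agent.LT.T7.B981.IwSuppC981 K :=
  iwSuppC116 K

end Fermat.Agent.LT.T7.H116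

end
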